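import Mathlib
import Fermat.Prelude.Def_ModularForm_HeckeOperator
import Fermat.Prelude.Def_FLTPrelim_Modularity
import Fermat.Prelude.Thm_UpperHalfPlane_qExpansion_coeff_nat_mul

/-!
# NEWFORM library (helper743), part 1: vanishing of `q`-expansion coefficients vs. periodicity

* `periodic_of_coeff_eq_zero` : if `a_n(F) = 0` for all `n` not divisible by `q`, then `F` has
  period `1/q`.
* `coeff_eq_zero_of_periodic` : conversely, if `F` has period `1/q`, then `a_n(F) = 0` unless
  `q ∣ n`.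
-/

set_option autoImplicit false

open UpperHalfPlane ModularForm Function Complex
open scoped MatrixGroups ModularForm Manifold Topology Real

namespace Fermat.Agent.Lib.Newform.H743

noncomputable section

/-- `𝕢 1 (w + 1/q) ^ n = 𝕢 1 w ^ n` when `q ∣ n`. -/
lemma qParam_add_inv_pow {q : ℕ} (hq : q ≠ 0) (w : ℂ) {n : ℕ} (hn : q ∣ n) :
    Function.Periodic.qParam 1 (w + ((1 / q : ℝ) : ℂ)) ^ n = Function.Periodic.qParam 1 w ^ n := by
  obtain ⟨m, rfl⟩ := hn
  have hq' : (q : ℂ) ≠ 0 := by exact_mod_cast hq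
  simp only [Function.Periodic.qParam, ← Complex.exp_nat_mul]
  rw [show ((q * m : ℕ) : ℂ) * (2 * π * Complex.I * (w + ((1 / q : ℝ) : ℂ)) / ((1 : ℝ) : ℂ)) =
      ((q * m : ℕ) : ℂ) * (2 * π * Complex.I * w / ((1 : ℝ) : ℂ)) +
        (m : ℂ) * (2 * π * Complex.I) by
    push_cast
    field_simp]
  rw [Complex.exp_add, Complex.exp_nat_mul_two_pi_mul_I, mul_one]

/-- If all `q`-expansion coefficients of index not divisible by `q` vanish, then the function has
period `1/q`. -/
theorem periodic_of_coeff_eq_zero {F : ℍ → ℂ} (hper : Periodic (F ∘ ofComplex) (1 : ℝ))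
    (hhol : MDiff F) (hbdd : IsBoundedAtImInfty F) {q : ℕ} (hq : q ≠ 0)
    (h0 : ∀ n : ℕ, ¬ q ∣ n → (qExpansion 1 F).coeff n = 0) :
    Periodic (F ∘ ofComplex) ((1 / q : ℝ) : ℝ) := by
  intro w
  by_cases! hw : 0 < im w
  · have hw' : 0 < im (w + ((1 / q : ℝ) : ℂ)) := by simpa using hw
    simp only [comp_apply, ofComplex_apply_of_im_pos hw', ofComplex_apply_of_im_pos hw]
    have h1 := hasSum_qExpansion one_pos hper hhol hbdd ⟨w + ((1 / q : ℝ) : ℂ), hw'⟩
    have h2 := hasSum_qExpansion one_pos hper hhol hbdd ⟨w, hw⟩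
    refine h1.unique ?_
    convert h2 using 2 with n
    by_cases hn : q ∣ n
    · rw [UpperHalfPlane.coe_mk, UpperHalfPlane.coe_mk, qParam_add_inv_pow hq w hn]
    · rw [h0 n hn, zero_smul, zero_smul]
  · have : im (w + ((1 / q : ℝ) : ℂ)) ≤ 0 := by simpa using hw
    rw [comp_apply, comp_apply, ofComplex_apply_of_im_nonpos this,
      ofComplex_apply_of_im_nonpos hw]

/-- If the function has period `1/q`, then all `q`-expansion coefficients of index not divisible by
`q` vanish. -/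
theorem coeff_eq_zero_of_periodic {F : ℍ → ℂ} {q : ℕ} (hq : q ≠ 0)
    (hper : Periodic (F ∘ ofComplex) ((1 / q : ℝ) : ℝ))
    (hhol : MDiff F) (hbdd : IsBoundedAtImInfty F) {n : ℕ} (hn : ¬ q ∣ n) :
    (qExpansion 1 F).coeff n = 0 := by
  have hq' : (0 : ℝ) < 1 / q := by
    have : (0 : ℝ) < q := by exact_mod_cast Nat.pos_of_ne_zero hq
    positivity
  have h := UpperHalfPlane.qExpansion_coeff_nat_mul hq' hper hhol hbdd (Nat.pos_of_ne_zero hq) n
  have e : ((q : ℝ) * (1 / q : ℝ)) = 1 := by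
    have : (q : ℝ) ≠ 0 := by exact_mod_cast hq
    field_simp
  rw [e, if_neg hn] at h
  exact h

/-- Pointwise form of periodicity. -/
lemma apply_vadd_of_periodic {F : ℍ → ℂ} {h : ℝ} (hper : Periodic (F ∘ ofComplex) h) (τ : ℍ) :
    F (h +ᵥ τ) = F τ := by
  have := hper (τ : ℂ)
  simp only [comp_apply, ofComplex_apply] at this
  rw [← this]
  congr 1
  have h2 : 0 < im ((τ : ℂ) + (h : ℂ)) := by simpa using τ.im_pos
  rw [ofComplex_apply_of_im_pos h2]
  ext
  simp [add_comm]

end

end Fermat.Agent.Lib.Newform.H743
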