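import Mathlib
import Fermat.Prelude.Def_ModularForm_HeckeOperator
import Fermat.Prelude.Def_ModularForm_HeckeOperatorForms
import Fermat.Prelude.Def_FLTPrelim_Modularity
import Fermat.Prelude.Thm_CongruenceSubgroup_one_mem_strictPeriods_Gamma0
import Fermat.Prelude.Thm_ModularFormClass_qCoeff_heckeU
import Fermat.Agent.Lib.Newform.H743.Periodic

/-!
# NEWFORM library (helper743), part 2: Atkin–Lehner "Lemma 16"

Let `f ∈ S_k(Γ₀(N))`, `q` prime, and assume `a_n(f) = 0` whenever `q ∤ n`.  For every `M` with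
`N ∣ q * M` (for instance `M = N`, or `M = N / q` when `q ∣ N`) the function `U_q f` (Prelude
`ModularForm.heckeU k q f`) is a cusp form of level `Γ₀(M)`, `f(τ) = (U_q f)(q τ)` and
`a_n(U_q f) = a_{nq}(f)`.
-/

set_option autoImplicit false

open UpperHalfPlane ModularForm Function Complex CongruenceSubgroup Matrix.SpecialLinearGroup
open scoped MatrixGroups ModularForm Manifold Topology Real

namespace Fermat.Agent.Lib.Newform.H743

noncomputable section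

/-- Slash by the unipotent matrix `[1, x; 0, 1]` is translation by `x`. -/
lemma slash_upperRightHom_apply (k : ℤ) (F : ℍ → ℂ) (x : ℝ) (τ : ℍ) :
    (F ∣[k] Matrix.GeneralLinearGroup.upperRightHom x) τ = F (x +ᵥ τ) := by
  have : Matrix.GeneralLinearGroup.upperRightHom x • τ = x +ᵥ τ := by
    ext
    simp [σ, num, denom, coe_vadd, UpperHalfPlane.coe_smul, add_comm]
  simp_rw [slash_def, this]
  simp [σ, denom, Matrix.GeneralLinearGroup.val_det_apply]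

/-- `[1, j; 0, q] • τ = j/q + [1, 0; 0, q] • τ`. -/
lemma heckeMatrix_smul_eq_vadd {q : ℕ} (hq : q ≠ 0) (j : ℕ) (τ : ℍ) :
    heckeMatrix q j • τ = ((j : ℝ) * (1 / q : ℝ)) +ᵥ (heckeMatrix q 0 • τ) := by
  ext
  have hq' : (q : ℂ) ≠ 0 := by exact_mod_cast hq
  rw [coe_vadd, coe_heckeMatrix_smul hq, coe_heckeMatrix_smul hq]
  push_cast
  field_simp
  ring

/-- For a function of period `1/q`, `U_q F (τ) = F (τ / q)`. -/
theorem heckeU_apply_of_periodic (k : ℤ) {q : ℕ} (hq : q ≠ 0) {F : ℍ → ℂ}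
    (hper : Periodic (F ∘ ofComplex) ((1 / q : ℝ) : ℝ)) (τ : ℍ) :
    heckeU k q F τ = F (heckeMatrix q 0 • τ) := by
  have hq' : (q : ℂ) ≠ 0 := by exact_mod_cast hq
  rw [heckeU_apply k hq]
  have h1 : ∀ j ∈ Finset.range q, F (heckeMatrix q j • τ) = F (heckeMatrix q 0 • τ) := by
    intro j _
    rw [heckeMatrix_smul_eq_vadd hq]
    have := (hper.nat_mul j)
    have h2 := apply_vadd_of_periodic (F := F) (h := (j : ℝ) * (1 / q : ℝ))
      (by simpa using this) (heckeMatrix q 0 • τ)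
    exact h2
  rw [Finset.sum_congr rfl h1, Finset.sum_const, Finset.card_range, nsmul_eq_mul, ← mul_assoc,
    inv_mul_cancel₀ hq', one_mul]

/-- For a function of period `1/q`, all the slashes `F ∣[k] [1, j; 0, q]` coincide. -/
theorem slash_heckeMatrix_eq_of_periodic (k : ℤ) {q : ℕ} (hq : q ≠ 0) {F : ℍ → ℂ}
    (hper : Periodic (F ∘ ofComplex) ((1 / q : ℝ) : ℝ)) (j : ℕ) :
    F ∣[k] heckeMatrix q j = F ∣[k] heckeMatrix q 0 := by
  funext τ
  rw [slash_heckeMatrix_apply k hq, slash_heckeMatrix_apply k hq, heckeMatrix_smul_eq_vadd hq]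
  congr 1
  have := (hper.nat_mul j)
  exact apply_vadd_of_periodic (F := F) (h := (j : ℝ) * (1 / q : ℝ))
    (by simpa using this) (heckeMatrix q 0 • τ)

theorem heckeU_eq_sum_of_periodic (k : ℤ) {q : ℕ} (hq : q ≠ 0) {F : ℍ → ℂ}
    (hper : Periodic (F ∘ ofComplex) ((1 / q : ℝ) : ℝ)) :
    heckeU k q F = ∑ _j ∈ Finset.range q, F ∣[k] heckeMatrix q 0 := by
  rw [heckeU_def]
  exact Finset.sum_congr rfl fun j _ => slash_heckeMatrix_eq_of_periodic k hq hper j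

/-- Entries of `T ^ i * γ * T ^ j`. -/
lemma T_zpow_mul_mul_T_zpow_apply (γ : SL(2, ℤ)) (i j : ℤ) :
    (ModularGroup.T ^ i * γ * ModularGroup.T ^ j) 0 0 = γ 0 0 + i * γ 1 0 ∧
    (ModularGroup.T ^ i * γ * ModularGroup.T ^ j) 0 1 =
      (γ 0 0 + i * γ 1 0) * j + (γ 0 1 + i * γ 1 1) ∧
    (ModularGroup.T ^ i * γ * ModularGroup.T ^ j) 1 0 = γ 1 0 ∧
    (ModularGroup.T ^ i * γ * ModularGroup.T ^ j) 1 1 = γ 1 0 * j + γ 1 1 := by
  simp only [Matrix.SpecialLinearGroup.coe_mul, ModularGroup.coe_T_zpow, Matrix.mul_apply,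
    Fin.sum_univ_two, Matrix.of_apply, Matrix.cons_val', Matrix.cons_val_zero,
    Matrix.cons_val_one, Matrix.cons_val_fin_one]
  refine ⟨by ring, by ring, by ring, by ring⟩

/-- The group lemma: every element of `Γ₀(M)` is of the form `T ^ i * γ' * T ^ j` with
`γ' ∈ Γ₀(M) ∩ Γ⁰(q)`. -/
theorem exists_T_zpow_mul_mem_Gamma0 {q : ℕ} (hq : q.Prime) (M : ℕ) (γ : SL(2, ℤ))
    (hγ : γ ∈ Gamma0 M) :
    ∃ (i j : ℤ) (γ' : SL(2, ℤ)), γ' ∈ Gamma0 M ∧ (q : ℤ) ∣ γ' 0 1 ∧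
      γ = ModularGroup.T ^ i * γ' * ModularGroup.T ^ j := by
  have hdet : γ 0 0 * γ 1 1 - γ 0 1 * γ 1 0 = 1 := by
    have := γ.det_coe
    rw [Matrix.det_fin_two] at this
    exact this
  have hqZ : Prime (q : ℤ) := Nat.prime_iff_prime_int.mp hq
  -- choose `i ∈ {0, 1}` with `q ∤ a + i c`
  obtain ⟨i, hi⟩ : ∃ i : ℤ, ¬ (q : ℤ) ∣ γ 0 0 + i * γ 1 0 := by
    by_cases ha : (q : ℤ) ∣ γ 0 0
    · refine ⟨1, fun h => ?_⟩
      have hc : (q : ℤ) ∣ γ 1 0 := by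
        have := dvd_sub h ha
        simpa using this
      have h1 : (q : ℤ) ∣ 1 := by
        rw [← hdet]
        exact dvd_sub (ha.mul_right _) (hc.mul_left _)
      exact hqZ.not_dvd_one h1
    · exact ⟨0, by simpa using ha⟩
  have hcop : IsCoprime (γ 0 0 + i * γ 1 0) (q : ℤ) :=
    ((Prime.coprime_iff_not_dvd hqZ).mpr hi).symm
  obtain ⟨x, y, hxy⟩ := hcop
  set j : ℤ := -x * (γ 0 1 + i * γ 1 1) with hj
  obtain ⟨h00, h01, h10, h11⟩ := T_zpow_mul_mul_T_zpow_apply γ i j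
  have hT : ∀ n : ℤ, ModularGroup.T ^ n ∈ Gamma0 M := by
    intro n
    rw [Gamma0_mem, ModularGroup.coe_T_zpow]
    simp
  refine ⟨-i, -j, ModularGroup.T ^ i * γ * ModularGroup.T ^ j, ?_, ?_, ?_⟩
  · exact mul_mem (mul_mem (hT i) hγ) (hT j)
  · rw [h01]
    refine ⟨y * (γ 0 1 + i * γ 1 1), ?_⟩
    rw [hj]
    linear_combination (-(γ 0 1 + i * γ 1 1)) * hxy
  · group

lemma heckeMatrix_zero_mul_mapGL {q : ℕ} (hq : q ≠ 0) (γ δ : SL(2, ℤ))
    (h00 : γ 0 0 = δ 0 0) (h01 : γ 0 1 = q * δ 0 1) (h10 : q * γ 1 0 = δ 1 0)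
    (h11 : γ 1 1 = δ 1 1) :
    heckeMatrix q 0 * mapGL ℝ γ = mapGL ℝ δ * heckeMatrix q 0 := by
  apply Units.ext
  ext i j
  fin_cases i <;> fin_cases j
  · simp [Matrix.mul_apply, Fin.sum_univ_two, val_heckeMatrix hq]
    exact_mod_cast h00
  · simp [Matrix.mul_apply, Fin.sum_univ_two, val_heckeMatrix hq]
    rw [mul_comm]
    exact_mod_cast h01
  · simp [Matrix.mul_apply, Fin.sum_univ_two, val_heckeMatrix hq]
    exact_mod_cast h10
  · simp [Matrix.mul_apply, Fin.sum_univ_two, val_heckeMatrix hq]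
    rw [h11, mul_comm]

/-- Conjugating an element of `Γ₀(M) ∩ Γ⁰(q)` by `[1, 0; 0, q]` gives an element of `Γ₀(N)`
as soon as `N ∣ q * M`. -/
theorem exists_conj_heckeMatrix_zero {N M q : ℕ} (hq : q ≠ 0) (hNM : N ∣ q * M) (γ : SL(2, ℤ))
    (hγ : γ ∈ Gamma0 M) (hb : (q : ℤ) ∣ γ 0 1) :
    ∃ δ ∈ Gamma0 N, heckeMatrix q 0 * mapGL ℝ γ = mapGL ℝ δ * heckeMatrix q 0 := by
  rw [Gamma0_mem, ZMod.intCast_zmod_eq_zero_iff_dvd] at hγ
  obtain ⟨c', hc'⟩ := hγ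
  obtain ⟨b', hb'⟩ := hb
  have hdet : γ 0 0 * γ 1 1 - γ 0 1 * γ 1 0 = 1 := by
    have := γ.det_coe
    rw [Matrix.det_fin_two] at this
    exact this
  have hδdet : (!![γ 0 0, b'; q * γ 1 0, γ 1 1] : Matrix (Fin 2) (Fin 2) ℤ).det = 1 := by
    rw [Matrix.det_fin_two_of]
    rw [hb'] at hdet
    linear_combination hdet
  let δ : SL(2, ℤ) := ⟨!![γ 0 0, b'; q * γ 1 0, γ 1 1], hδdet⟩
  have hδ00 : δ 0 0 = γ 0 0 := rfl
  have hδ01 : δ 0 1 = b' := rfl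
  have hδ10 : δ 1 0 = q * γ 1 0 := rfl
  have hδ11 : δ 1 1 = γ 1 1 := rfl
  refine ⟨δ, ?_, ?_⟩
  · rw [Gamma0_mem, ZMod.intCast_zmod_eq_zero_iff_dvd, hδ10, hc']
    have : (N : ℤ) ∣ (q : ℤ) * (M : ℤ) := by exact_mod_cast hNM
    obtain ⟨e, he⟩ := this
    exact ⟨e * c', by linear_combination c' * he⟩
  · exact heckeMatrix_zero_mul_mapGL hq γ δ hδ00.symm (by rw [hδ01, hb']) hδ10.symm hδ11.symm

lemma Gamma0_mul_le (q N : ℕ) : Gamma0 (q * N) ≤ Gamma0 N := by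
  intro γ hγ
  rw [Gamma0_mem, ZMod.intCast_zmod_eq_zero_iff_dvd] at hγ ⊢
  refine dvd_trans ?_ hγ
  exact_mod_cast dvd_mul_left N q

lemma T_zpow_mem_Gamma0 (N : ℕ) (n : ℤ) : ModularGroup.T ^ n ∈ Gamma0 N := by
  rw [Gamma0_mem, ModularGroup.coe_T_zpow]
  simp

/-- **Function level Lemma 16.**  If `F` is `Γ₀(N)`-invariant of weight `k` and has period `1/q`,
then `U_q F` is `Γ₀(M)`-invariant for every `M` with `N ∣ q * M`. -/
theorem heckeU_slash_eq_self_of_periodic {N M q : ℕ} (hq : q.Prime) (hNM : N ∣ q * M) (k : ℤ)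
    {F : ℍ → ℂ} (hF : ∀ γ ∈ (Gamma0 N : Subgroup (GL (Fin 2) ℝ)), F ∣[k] γ = F)
    (hper : Periodic (F ∘ ofComplex) ((1 / q : ℝ) : ℝ))
    (γ : GL (Fin 2) ℝ) (hγ : γ ∈ (Gamma0 M : Subgroup (GL (Fin 2) ℝ))) :
    heckeU k q F ∣[k] γ = heckeU k q F := by
  obtain ⟨γ₀, hγ₀, rfl⟩ := hγ
  obtain ⟨i, j, γ', hγ', hb, rfl⟩ := exists_T_zpow_mul_mem_Gamma0 hq M γ₀ hγ₀
  have hT : ∀ n : ℤ, heckeU k q F ∣[k] mapGL ℝ (ModularGroup.T ^ n) = heckeU k q F := by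
    intro n
    have hF' : ∀ γ ∈ (Gamma0 (q * N) : Subgroup (GL (Fin 2) ℝ)), F ∣[k] γ = F := by
      rintro _ ⟨γ, hγ, rfl⟩
      exact hF _ ⟨γ, Gamma0_mul_le q N hγ, rfl⟩
    exact heckeU_slash_eq_self_of_mem_Gamma0 k (dvd_mul_right q N) hF' _
      ⟨_, T_zpow_mem_Gamma0 (q * N) n, rfl⟩
  have hγ'' : heckeU k q F ∣[k] mapGL ℝ γ' = heckeU k q F := by
    obtain ⟨δ, hδ, hconj⟩ := exists_conj_heckeMatrix_zero hq.ne_zero hNM γ' hγ' hb
    rw [heckeU_eq_sum_of_periodic k hq.ne_zero hper, SlashAction.sum_slash]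
    refine Finset.sum_congr rfl fun _ _ => ?_
    rw [← SlashAction.slash_mul, hconj, SlashAction.slash_mul, hF _ ⟨δ, hδ, rfl⟩]
  rw [map_mul, map_mul, SlashAction.slash_mul, SlashAction.slash_mul, hT, hγ'', hT]

/-- Periodicity `1/q` of a cusp form all of whose coefficients of index prime to `q` vanish. -/
theorem periodic_of_qCoeff_eq_zero {N : ℕ} [NeZero N] {k : ℤ} (f : CuspForm (Gamma0 N) k)
    {q : ℕ} (hq : q ≠ 0) (h0 : ∀ n : ℕ, ¬ q ∣ n → ModularFormClass.qCoeff f n = 0) :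
    Periodic ((f : ℍ → ℂ) ∘ ofComplex) ((1 / q : ℝ) : ℝ) := by
  have hΓ := CongruenceSubgroup.one_mem_strictPeriods_Gamma0 N
  have : Fact (IsCusp OnePoint.infty (Gamma0 N : Subgroup (GL (Fin 2) ℝ))) :=
    ⟨Subgroup.isCusp_of_mem_strictPeriods one_pos hΓ⟩
  exact periodic_of_coeff_eq_zero (SlashInvariantFormClass.periodic_comp_ofComplex f hΓ)
    (CuspFormClass.holo f) (ModularFormClass.bdd_at_infty f) hq h0

/-- **Lemma 16** (Atkin–Lehner).  If `f ∈ S_k(Γ₀(N))` has `a_n(f) = 0` for all `n` prime to `q`,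
then `U_q f` is a cusp form of level `Γ₀(M)` for every `M` with `N ∣ q * M`. -/
def heckeULower {N M q : ℕ} [NeZero N] [NeZero M] (hq : q.Prime) (hNM : N ∣ q * M) {k : ℤ}
    (f : CuspForm (Gamma0 N) k) (h0 : ∀ n : ℕ, ¬ q ∣ n → ModularFormClass.qCoeff f n = 0) :
    CuspForm (Gamma0 M) k where
  toFun := heckeU k q f
  slash_action_eq' := fun γ hγ => heckeU_slash_eq_self_of_periodic hq hNM k
    (fun γ hγ => SlashInvariantFormClass.slash_action_eq f γ hγ)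
    (periodic_of_qCoeff_eq_zero f hq.ne_zero h0) γ hγ
  holo' := mdifferentiable_heckeU (CuspFormClass.holo f) k q
  zero_at_cusps' := fun {c} hc => CuspFormClass.isZeroAt_heckeU f q
    (by rw [Subgroup.IsArithmetic.isCusp_iff_isCusp_SL2Z] at hc ⊢; exact hc)

@[simp] theorem coe_heckeULower {N M q : ℕ} [NeZero N] [NeZero M] (hq : q.Prime)
    (hNM : N ∣ q * M) {k : ℤ} (f : CuspForm (Gamma0 N) k)
    (h0 : ∀ n : ℕ, ¬ q ∣ n → ModularFormClass.qCoeff f n = 0) :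
    ⇑(heckeULower hq hNM f h0) = heckeU k q ⇑f := rfl

theorem qCoeff_heckeULower {N M q : ℕ} [NeZero N] [NeZero M] (hq : q.Prime)
    (hNM : N ∣ q * M) {k : ℤ} (f : CuspForm (Gamma0 N) k)
    (h0 : ∀ n : ℕ, ¬ q ∣ n → ModularFormClass.qCoeff f n = 0) (n : ℕ) :
    ModularFormClass.qCoeff (heckeULower hq hNM f h0) n = ModularFormClass.qCoeff f (n * q) := by
  rw [coe_heckeULower, ModularFormClass.qCoeff_heckeU f
    (CongruenceSubgroup.one_mem_strictPeriods_Gamma0 N) hq.ne_zero, coeffHeckeU_apply]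

/-- `f(τ) = (U_q f)(q τ)`. -/
theorem apply_eq_heckeULower {N M q : ℕ} [NeZero N] [NeZero M] (hq : q.Prime)
    (hNM : N ∣ q * M) {k : ℤ} (f : CuspForm (Gamma0 N) k)
    (h0 : ∀ n : ℕ, ¬ q ∣ n → ModularFormClass.qCoeff f n = 0) (τ : ℍ) :
    f τ = heckeULower hq hNM f h0 (heckeDiagMatrix q • τ) := by
  rw [coe_heckeULower, heckeU_apply_of_periodic k hq.ne_zero
    (periodic_of_qCoeff_eq_zero f hq.ne_zero h0)]
  congr 1
  ext
  have hq' : (q : ℂ) ≠ 0 := by exact_mod_cast hq.ne_zero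
  rw [coe_heckeMatrix_smul hq.ne_zero, coe_heckeDiagMatrix_smul hq.ne_zero]
  push_cast
  field_simp
  simp

end

end Fermat.Agent.Lib.Newform.H743
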