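import Mathlib
import Fermat.Agent.Lib.Newform.H743.Lemma16

/-!
# NEWFORM library (helper743), part 3: the case `q ∤ N`

If `f ∈ S_k(Γ₀(N))`, `q` is a prime not dividing `N` and `a_n(f) = 0` whenever `q ∤ n`, then
`f = 0`.  (Petersson-free: `U_q f` is again of level `N` and again has period `1/q`, by an explicit
matrix identity; then induct on the index of the coefficient.)
-/

set_option autoImplicit false

open UpperHalfPlane ModularForm Function Complex CongruenceSubgroup Matrix.SpecialLinearGroup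
open scoped MatrixGroups ModularForm Manifold Topology Real

namespace Fermat.Agent.Lib.Newform.H743

noncomputable section

lemma coe_mapGL_eq_of (γ : SL(2, ℤ)) :
    ((mapGL ℝ γ : GL (Fin 2) ℝ) : Matrix (Fin 2) (Fin 2) ℝ) =
      !![(γ 0 0 : ℝ), (γ 0 1 : ℝ); (γ 1 0 : ℝ), (γ 1 1 : ℝ)] := by
  ext i j
  fin_cases i <;> fin_cases j <;> simp

/-- The key matrix identity `β γ_h u = γ₀ β γ_h`, where `β = [1, 0; 0, q]`, `u = [1, 1/q; 0, 1]`,
`γ_h = [q, b; N, d]` and `γ₀ = [1 - N, 1; -N², 1 + N]`. -/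
lemma key_matrix_identity {q : ℕ} (hq : q ≠ 0) (N : ℤ) (γh γ0 : SL(2, ℤ))
    (h00 : γh 0 0 = q) (h10 : γh 1 0 = N) (hdet : (q : ℤ) * γh 1 1 - γh 0 1 * N = 1)
    (g00 : γ0 0 0 = 1 - N) (g01 : γ0 0 1 = 1) (g10 : γ0 1 0 = -N ^ 2) (g11 : γ0 1 1 = 1 + N) :
    heckeMatrix q 0 * mapGL ℝ γh * Matrix.GeneralLinearGroup.upperRightHom ((1 / q : ℝ) : ℝ) =
      mapGL ℝ γ0 * heckeMatrix q 0 * mapGL ℝ γh := by
  have hq' : (q : ℝ) ≠ 0 := by exact_mod_cast hq
  have hdet' : (q : ℝ) * (γh 1 1 : ℝ) - (γh 0 1 : ℝ) * (N : ℝ) = 1 := by exact_mod_cast hdet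
  apply Units.ext
  simp only [Units.val_mul, coe_mapGL_eq_of, val_heckeMatrix hq,
    Matrix.GeneralLinearGroup.upperRightHom_apply, Matrix.mul_fin_two, h00, h10, g00, g01, g10,
    g11]
  ext i j
  fin_cases i <;> fin_cases j
  · simp
    ring
  · simp
    field_simp
    linear_combination (-(1 : ℝ)) * hdet'
  · simp
    ring
  · simp
    field_simp
    linear_combination (-(N : ℝ)) * hdet'

/-- Existence of the two integral matrices used in `key_matrix_identity`. -/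
lemma exists_key_matrices {q N : ℕ} (hq : q.Prime) (hqN : ¬ q ∣ N) :
    ∃ γh ∈ Gamma0 N, ∃ γ0 ∈ Gamma0 N,
      heckeMatrix q 0 * mapGL ℝ γh * Matrix.GeneralLinearGroup.upperRightHom ((1 / q : ℝ) : ℝ) =
        mapGL ℝ γ0 * heckeMatrix q 0 * mapGL ℝ γh := by
  have hcop : IsCoprime (q : ℤ) (N : ℤ) := by
    rw [Prime.coprime_iff_not_dvd (Nat.prime_iff_prime_int.mp hq)]
    exact_mod_cast hqN
  obtain ⟨x, y, hxy⟩ := hcop
  have hdh : (!![(q : ℤ), -y; (N : ℤ), x] : Matrix (Fin 2) (Fin 2) ℤ).det = 1 := by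
    rw [Matrix.det_fin_two_of]
    linear_combination hxy
  have hd0 : (!![1 - (N : ℤ), 1; -(N : ℤ) ^ 2, 1 + (N : ℤ)] : Matrix (Fin 2) (Fin 2) ℤ).det = 1 := by
    rw [Matrix.det_fin_two_of]
    ring
  let γh : SL(2, ℤ) := ⟨!![(q : ℤ), -y; (N : ℤ), x], hdh⟩
  let γ0 : SL(2, ℤ) := ⟨!![1 - (N : ℤ), 1; -(N : ℤ) ^ 2, 1 + (N : ℤ)], hd0⟩
  have h00 : γh 0 0 = q := rfl
  have h01 : γh 0 1 = -y := rfl
  have h10 : γh 1 0 = N := rfl
  have h11 : γh 1 1 = x := rfl
  have g00 : γ0 0 0 = 1 - N := rfl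
  have g01 : γ0 0 1 = 1 := rfl
  have g10 : γ0 1 0 = -(N : ℤ) ^ 2 := rfl
  have g11 : γ0 1 1 = 1 + N := rfl
  refine ⟨γh, ?_, γ0, ?_, ?_⟩
  · rw [Gamma0_mem, h10]
    simp
  · rw [Gamma0_mem, g10]
    simp
  · refine key_matrix_identity hq.ne_zero N γh γ0 h00 h10 ?_ g00 g01 g10 g11
    rw [h01, h11]
    linear_combination hxy

/-- If `F` is `Γ₀(N)`-invariant with `q ∤ N` and has period `1/q`, then `U_q F` is invariant
under `[1, 1/q; 0, 1]`. -/
theorem heckeU_slash_upperRightHom {N q : ℕ} (hq : q.Prime) (hqN : ¬ q ∣ N) (k : ℤ)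
    {F : ℍ → ℂ} (hF : ∀ γ ∈ (Gamma0 N : Subgroup (GL (Fin 2) ℝ)), F ∣[k] γ = F)
    (hper : Periodic (F ∘ ofComplex) ((1 / q : ℝ) : ℝ)) :
    heckeU k q F ∣[k] Matrix.GeneralLinearGroup.upperRightHom ((1 / q : ℝ) : ℝ) =
      heckeU k q F := by
  obtain ⟨γh, hγh, γ0, hγ0, hkey⟩ := exists_key_matrices hq hqN
  have hG := heckeU_slash_eq_self_of_periodic hq (dvd_mul_left N q) k hF hper
    (mapGL ℝ γh) ⟨γh, hγh, rfl⟩
  have hsum := heckeU_eq_sum_of_periodic k hq.ne_zero hper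
  calc heckeU k q F ∣[k] Matrix.GeneralLinearGroup.upperRightHom ((1 / q : ℝ) : ℝ)
      = (heckeU k q F ∣[k] mapGL ℝ γh) ∣[k]
          Matrix.GeneralLinearGroup.upperRightHom ((1 / q : ℝ) : ℝ) := by rw [hG]
    _ = ∑ _j ∈ Finset.range q, F ∣[k] (heckeMatrix q 0 * mapGL ℝ γh *
          Matrix.GeneralLinearGroup.upperRightHom ((1 / q : ℝ) : ℝ)) := by
        rw [hsum, SlashAction.sum_slash, SlashAction.sum_slash]
        refine Finset.sum_congr rfl fun _ _ => ?_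
        rw [SlashAction.slash_mul, SlashAction.slash_mul]
    _ = ∑ _j ∈ Finset.range q, (F ∣[k] heckeMatrix q 0) ∣[k] mapGL ℝ γh := by
        refine Finset.sum_congr rfl fun _ _ => ?_
        rw [hkey, SlashAction.slash_mul, SlashAction.slash_mul, hF _ ⟨γ0, hγ0, rfl⟩]
    _ = heckeU k q F ∣[k] mapGL ℝ γh := by
        rw [hsum, SlashAction.sum_slash]
    _ = heckeU k q F := hG

/-- Converse of `apply_vadd_of_periodic`. -/
lemma periodic_of_apply_vadd {F : ℍ → ℂ} {h : ℝ} (hF : ∀ τ : ℍ, F (h +ᵥ τ) = F τ) :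
    Periodic (F ∘ ofComplex) h := by
  intro w
  by_cases! hw : 0 < im w
  · have hw' : 0 < im (w + (h : ℂ)) := by simpa using hw
    simp only [comp_apply, ofComplex_apply_of_im_pos hw', ofComplex_apply_of_im_pos hw]
    rw [← hF ⟨w, hw⟩]
    congr 1
    ext
    simp [add_comm]
  · have : im (w + (h : ℂ)) ≤ 0 := by simpa using hw
    rw [comp_apply, comp_apply, ofComplex_apply_of_im_nonpos this,
      ofComplex_apply_of_im_nonpos hw]

/-- If `F` is `Γ₀(N)`-invariant with `q ∤ N` and has period `1/q`, then so does `U_q F`. -/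
theorem periodic_heckeU_of_not_dvd {N q : ℕ} (hq : q.Prime) (hqN : ¬ q ∣ N) (k : ℤ)
    {F : ℍ → ℂ} (hF : ∀ γ ∈ (Gamma0 N : Subgroup (GL (Fin 2) ℝ)), F ∣[k] γ = F)
    (hper : Periodic (F ∘ ofComplex) ((1 / q : ℝ) : ℝ)) :
    Periodic (heckeU k q F ∘ ofComplex) ((1 / q : ℝ) : ℝ) := by
  apply periodic_of_apply_vadd
  intro τ
  have h1 := slash_upperRightHom_apply k (heckeU k q F) ((1 / q : ℝ) : ℝ) τ
  rw [heckeU_slash_upperRightHom hq hqN k hF hper] at h1
  exact h1.symm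

/-- For `q ∤ N`, the cusp form `U_q f` of level `N` again has vanishing coefficients at all
indices prime to `q`. -/
theorem qCoeff_heckeULower_eq_zero {N q : ℕ} [NeZero N] (hq : q.Prime) (hqN : ¬ q ∣ N) {k : ℤ}
    (f : CuspForm (Gamma0 N) k) (h0 : ∀ n : ℕ, ¬ q ∣ n → ModularFormClass.qCoeff f n = 0)
    (n : ℕ) (hn : ¬ q ∣ n) :
    ModularFormClass.qCoeff (heckeULower hq (dvd_mul_left N q) f h0) n = 0 := by
  have hΓ := CongruenceSubgroup.one_mem_strictPeriods_Gamma0 N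
  have : Fact (IsCusp OnePoint.infty (Gamma0 N : Subgroup (GL (Fin 2) ℝ))) :=
    ⟨Subgroup.isCusp_of_mem_strictPeriods one_pos hΓ⟩
  have hper := periodic_heckeU_of_not_dvd hq hqN k
    (fun γ hγ => SlashInvariantFormClass.slash_action_eq f γ hγ)
    (periodic_of_qCoeff_eq_zero f hq.ne_zero h0)
  exact coeff_eq_zero_of_periodic hq.ne_zero hper
    (CuspFormClass.holo (heckeULower hq (dvd_mul_left N q) f h0))
    (ModularFormClass.bdd_at_infty (heckeULower hq (dvd_mul_left N q) f h0)) hn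

/-- All coefficients vanish. -/
theorem qCoeff_eq_zero_of_not_dvd_level {N q : ℕ} [NeZero N] (hq : q.Prime) (hqN : ¬ q ∣ N)
    {k : ℤ} (n : ℕ) : ∀ (f : CuspForm (Gamma0 N) k),
      (∀ n : ℕ, ¬ q ∣ n → ModularFormClass.qCoeff f n = 0) → ModularFormClass.qCoeff f n = 0 := by
  induction n using Nat.strong_induction_on with
  | _ n ih =>
    intro f h0
    by_cases hn : q ∣ n
    · obtain ⟨m, rfl⟩ := hn
      rcases Nat.eq_zero_or_pos m with rfl | hm
      · rw [mul_zero]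
        exact CuspFormClass.qExpansion_coeff_zero f one_pos
          (CongruenceSubgroup.one_mem_strictPeriods_Gamma0 N)
      · have hlt : m < q * m := by
          have := hq.one_lt
          nlinarith
        have := ih m hlt (heckeULower hq (dvd_mul_left N q) f h0)
          (qCoeff_heckeULower_eq_zero hq hqN f h0)
        rw [qCoeff_heckeULower] at this
        rwa [mul_comm]
    · exact h0 n hn

/-- **Vanishing for `q ∤ N`.**  A cusp form of level `Γ₀(N)` whose `q`-expansion is supported on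
multiples of a prime `q ∤ N` is zero. -/
theorem eq_zero_of_qCoeff_eq_zero_of_not_dvd_level {N q : ℕ} [NeZero N] (hq : q.Prime)
    (hqN : ¬ q ∣ N) {k : ℤ} (f : CuspForm (Gamma0 N) k)
    (h0 : ∀ n : ℕ, ¬ q ∣ n → ModularFormClass.qCoeff f n = 0) : f = 0 := by
  have hΓ := CongruenceSubgroup.one_mem_strictPeriods_Gamma0 N
  have : Fact (IsCusp OnePoint.infty (Gamma0 N : Subgroup (GL (Fin 2) ℝ))) :=
    ⟨Subgroup.isCusp_of_mem_strictPeriods one_pos hΓ⟩
  have h1 : qExpansion 1 (f : ℍ → ℂ) = 0 := by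
    ext n
    rw [map_zero]
    exact qCoeff_eq_zero_of_not_dvd_level hq hqN n f h0
  have h2 := (UpperHalfPlane.qExpansion_eq_zero_iff one_pos
    (SlashInvariantFormClass.periodic_comp_ofComplex f hΓ)
    (CuspFormClass.holo f) (ModularFormClass.bdd_at_infty f)).mp h1
  exact DFunLike.coe_injective h2

end

end Fermat.Agent.Lib.Newform.H743
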