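import Mathlib
import Fermat.Prelude.Def_ModularForm_HeckeOperator
import Fermat.Agent.Lib.Newform.H803.MainLemma
import Fermat.Agent.Lib.Newform.H743.Vanish

/-!
# NEWFORM library (helper743), part 4: `q`-series bookkeeping at function level

`HasQ c F` : `F(τ) = ∑ c_n q^n` for all `τ`, `q = e^{2πiτ}`.  Linear operations, the substitution
`τ ↦ d τ`, uniqueness of the coefficients, and the `q`-series of a cuspidal `T`-invariant function.
-/

set_option autoImplicit false

open UpperHalfPlane ModularForm Function Complex CongruenceSubgroup Matrix.SpecialLinearGroup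
open scoped MatrixGroups ModularForm Manifold Topology Real

namespace Fermat.Agent.Lib.Newform.H743

open Fermat.Agent.Lib.Newform.H803

noncomputable section

/-- `F(τ) = ∑ c_n e^{2πi n τ}`. -/
def HasQ (c : ℕ → ℂ) (F : ℍ → ℂ) : Prop :=
  ∀ τ : ℍ, HasSum (fun n : ℕ => c n * Function.Periodic.qParam 1 τ ^ n) (F τ)

theorem HasQ.congr {c c' : ℕ → ℂ} {F : ℍ → ℂ} (h : HasQ c F) (hc : ∀ n, c n = c' n) :
    HasQ c' F := by
  have : c = c' := funext hc
  rwa [← this]

theorem HasQ.add {c c' : ℕ → ℂ} {F F' : ℍ → ℂ} (h : HasQ c F) (h' : HasQ c' F') :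
    HasQ (fun n => c n + c' n) (F + F') := by
  intro τ
  have := (h τ).add (h' τ)
  simpa [add_mul] using this

theorem HasQ.sub {c c' : ℕ → ℂ} {F F' : ℍ → ℂ} (h : HasQ c F) (h' : HasQ c' F') :
    HasQ (fun n => c n - c' n) (F - F') := by
  intro τ
  have := (h τ).sub (h' τ)
  simpa [sub_mul] using this

theorem HasQ.smul {c : ℕ → ℂ} {F : ℍ → ℂ} (a : ℂ) (h : HasQ c F) :
    HasQ (fun n => a * c n) (a • F) := by
  intro τ
  have := (h τ).mul_left a
  simpa [mul_assoc] using this

theorem HasQ.zero : HasQ (fun _ => 0) (0 : ℍ → ℂ) := by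
  intro τ
  simpa using (hasSum_zero : HasSum (fun _ : ℕ => (0 : ℂ)) 0)

theorem HasQ.sum {ι : Type*} (s : Finset ι) {c : ι → ℕ → ℂ} {F : ι → ℍ → ℂ}
    (h : ∀ i ∈ s, HasQ (c i) (F i)) :
    HasQ (fun n => ∑ i ∈ s, c i n) (∑ i ∈ s, F i) := by
  classical
  induction s using Finset.induction_on with
  | empty => simp [HasQ.zero]
  | insert a s ha ih =>
    have h1 := (h a (Finset.mem_insert_self a s)).add
      (ih fun i hi => h i (Finset.mem_insert_of_mem hi))
    rw [Finset.sum_insert ha]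
    refine h1.congr fun n => ?_
    rw [Finset.sum_insert ha]

theorem cuspFunction_one_zero : cuspFunction 1 (0 : ℍ → ℂ) = 0 := by
  simpa [cuspFunction, Function.Periodic.cuspFunction]
    using! (tendsto_const_nhds.mono_left nhdsWithin_le_nhds).limUnder_eq

/-- Uniqueness of the coefficients: a `q`-series representing `0` is `0`. -/
theorem HasQ.eq_zero_of_zero {c : ℕ → ℂ} (h : HasQ c (0 : ℍ → ℂ)) (n : ℕ) : c n = 0 := by
  have han : AnalyticAt ℂ (cuspFunction 1 (0 : ℍ → ℂ)) 0 := by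
    rw [cuspFunction_one_zero]
    exact analyticAt_const
  have h1 := UpperHalfPlane.hasFPowerSeriesOnBall_cuspFunction (f := (0 : ℍ → ℂ)) (c := c)
    one_pos han h
  rw [cuspFunction_one_zero] at h1
  have h3 := h1.hasFPowerSeriesAt.eq_zero
  have h4 := congrArg (fun p => FormalMultilinearSeries.coeff p n) h3
  simp only [FormalMultilinearSeries.coeff_ofScalars] at h4
  rw [h4]
  simp [FormalMultilinearSeries.coeff]

theorem HasQ.unique {c c' : ℕ → ℂ} {F : ℍ → ℂ} (h : HasQ c F) (h' : HasQ c' F) (n : ℕ) :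
    c n = c' n := by
  have h1 := h.sub h'
  rw [sub_self] at h1
  exact sub_eq_zero.mp (h1.eq_zero_of_zero n)

/-- The `q`-series of `τ ↦ H (d τ)`. -/
theorem HasQ.comp_diag {c : ℕ → ℂ} {H : ℍ → ℂ} (h : HasQ c H) {d : ℕ} (hd : d ≠ 0) :
    HasQ (fun n => if d ∣ n then c (n / d) else 0) (fun τ => H (heckeDiagMatrix d • τ)) := by
  intro τ
  have h1 := h (heckeDiagMatrix d • τ)
  have hq : Function.Periodic.qParam 1 ((heckeDiagMatrix d • τ : ℍ) : ℂ) =
      Function.Periodic.qParam 1 (τ : ℂ) ^ d := by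
    rw [coe_heckeDiagMatrix_smul hd, Function.Periodic.qParam, Function.Periodic.qParam,
      ← Complex.exp_nat_mul]
    congr 1
    push_cast
    ring
  rw [hq] at h1
  have hinj : Function.Injective (fun m : ℕ => d * m) :=
    fun a b hab => Nat.eq_of_mul_eq_mul_left (Nat.pos_of_ne_zero hd) hab
  refine (hinj.hasSum_iff ?_).mp ?_
  · intro n hn
    have : ¬ d ∣ n := fun ⟨m, hm⟩ => hn ⟨m, hm.symm⟩
    simp [this]
  · have h3 : ((fun n : ℕ => (if d ∣ n then c (n / d) else 0) *
        Function.Periodic.qParam 1 (τ : ℂ) ^ n) ∘ fun m : ℕ => d * m) =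
        fun m : ℕ => c m * (Function.Periodic.qParam 1 (τ : ℂ) ^ d) ^ m := by
      funext m
      simp only [Function.comp_apply, dvd_mul_right, if_true,
        Nat.mul_div_cancel_left m (Nat.pos_of_ne_zero hd), pow_mul]
    rw [h3]
    exact h1

/-- A cuspidal function is zero at `i∞`. -/
theorem isZeroAtImInfty_of_isCuspidal {k : ℤ} {F : ℍ → ℂ} (hF : IsCuspidal k F) :
    IsZeroAtImInfty F := by
  have h1 : IsCusp OnePoint.infty 𝒮ℒ := by
    rw [isCusp_SL2Z_iff]
    exact ⟨OnePoint.infty, rfl⟩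
  exact OnePoint.isZeroAt_infty_iff.mp (hF.2 _ h1)

/-- `T`-invariance gives `1`-periodicity. -/
theorem periodic_of_slash_T {k : ℤ} {F : ℍ → ℂ} (hT : F ∣[k] ModularGroup.T = F) :
    Periodic (F ∘ ofComplex) (1 : ℝ) := by
  apply periodic_of_apply_vadd
  intro τ
  have h1 := congrFun hT τ
  rw [ModularForm.SL_slash_apply] at h1
  have hden : denom ModularGroup.T τ = 1 := by
    rw [ModularGroup.denom_apply]
    simp [ModularGroup.T]
  rw [hden, one_zpow, mul_one] at h1
  rw [← h1]
  congr 1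
  ext
  have h2 := ModularGroup.coe_T_zpow_smul_eq (z := τ) (n := 1)
  rw [zpow_one] at h2
  rw [h2, coe_vadd]
  push_cast
  ring

/-- The `q`-series of a cuspidal `1`-periodic function. -/
theorem hasQ_of_isCuspidal {k : ℤ} {F : ℍ → ℂ} (hF : IsCuspidal k F)
    (hper : Periodic (F ∘ ofComplex) (1 : ℝ)) :
    HasQ (fun n => (qExpansion 1 F).coeff n) F := by
  intro τ
  have := UpperHalfPlane.hasSum_qExpansion one_pos hper hF.1
    (isZeroAtImInfty_of_isCuspidal hF).isBoundedAtImInfty τ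
  simpa [smul_eq_mul] using this

theorem qExpansion_coeff_zero_of_isCuspidal {k : ℤ} {F : ℍ → ℂ} (hF : IsCuspidal k F)
    (hper : Periodic (F ∘ ofComplex) (1 : ℝ)) : (qExpansion 1 F).coeff 0 = 0 := by
  have han := UpperHalfPlane.analyticAt_cuspFunction_zero one_pos hper hF.1
    (isZeroAtImInfty_of_isCuspidal hF).isBoundedAtImInfty
  rw [UpperHalfPlane.qExpansion_coeff_zero one_pos han hper]
  exact (isZeroAtImInfty_of_isCuspidal hF).valueAtInfty_eq_zero

/-- A `Γ₀(N)`-invariant function is `1`-periodic. -/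
theorem periodic_of_slInv_Gamma0 {k : ℤ} {N : ℕ} {F : ℍ → ℂ} (hF : SlInv k (Gamma0 N) F) :
    Periodic (F ∘ ofComplex) (1 : ℝ) := by
  apply periodic_of_slash_T (k := k)
  have := hF (ModularGroup.T ^ (1 : ℤ)) (T_zpow_mem_Gamma0 N 1)
  rwa [zpow_one] at this

end

end Fermat.Agent.Lib.Newform.H743
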