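import Mathlib
import Fermat.Prelude.Def_ModularForm_HeckeOperator
import Fermat.Agent.Lib.Newform.H743.QSeriesD

/-!
# NEWFORM library (helper743), part 5: integral matrices in `GL₂(ℝ)` and the slash action

`intGL a b c d` is the matrix `[a, b; c, d]` (integers, nonzero determinant) as an element of
`GL₂(ℝ)` coming from `GL₂(ℚ)`; slashing with it preserves cuspidality.  We record how slashing
interacts with scalars, with `B_d : F ↦ F(d τ)` and with scalar matrices.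
-/

set_option autoImplicit false

open UpperHalfPlane ModularForm Function Complex CongruenceSubgroup Matrix.SpecialLinearGroup
open scoped MatrixGroups ModularForm Manifold Topology Real

namespace Fermat.Agent.Lib.Newform.H743

open Fermat.Agent.Lib.Newform.H803

noncomputable section

/-- `[a, b; c, d]` as an element of `GL₂(ℚ)`. -/
def intGLQ (a b c d : ℤ) (h : a * d - b * c ≠ 0) : GL (Fin 2) ℚ :=
  Matrix.GeneralLinearGroup.mkOfDetNeZero !![(a : ℚ), (b : ℚ); (c : ℚ), (d : ℚ)]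
    (by rw [Matrix.det_fin_two_of]; exact_mod_cast h)

/-- `[a, b; c, d]` as an element of `GL₂(ℝ)`. -/
def intGL (a b c d : ℤ) (h : a * d - b * c ≠ 0) : GL (Fin 2) ℝ :=
  (intGLQ a b c d h).map (Rat.castHom ℝ)

@[simp] theorem val_intGL (a b c d : ℤ) (h : a * d - b * c ≠ 0) :
    ((intGL a b c d h : GL (Fin 2) ℝ) : Matrix (Fin 2) (Fin 2) ℝ) =
      !![(a : ℝ), (b : ℝ); (c : ℝ), (d : ℝ)] := by
  ext i j
  fin_cases i <;> fin_cases j <;> simp [intGL, intGLQ]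

theorem det_intGL (a b c d : ℤ) (h : a * d - b * c ≠ 0) :
    ((intGL a b c d h).det : ℝ) = a * d - b * c := by
  rw [Matrix.GeneralLinearGroup.val_det_apply, val_intGL, Matrix.det_fin_two_of]

theorem σ_intGL (a b c d : ℤ) (h : a * d - b * c ≠ 0) (hpos : 0 < a * d - b * c) :
    UpperHalfPlane.σ (intGL a b c d h) = .refl ℝ ℂ := by
  rw [UpperHalfPlane.σ, if_pos]
  rw [det_intGL]
  exact_mod_cast hpos

theorem isCuspidal_slash_intGL {k : ℤ} {F : ℍ → ℂ} (hF : IsCuspidal k F) (a b c d : ℤ)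
    (h : a * d - b * c ≠ 0) : IsCuspidal k (F ∣[k] intGL a b c d h) :=
  hF.slash_rat _

/-- Slashing commutes with scalars for matrices of positive determinant. -/
theorem smul_slash_of_σ {k : ℤ} (A : GL (Fin 2) ℝ) (hA : UpperHalfPlane.σ A = .refl ℝ ℂ)
    (c : ℂ) (F : ℍ → ℂ) : (c • F) ∣[k] A = c • (F ∣[k] A) := by
  rw [ModularForm.smul_slash, hA]
  rfl

/-- The operator `B_d : F ↦ F(d τ)`. -/
def Bd (d : ℕ) (F : ℍ → ℂ) : ℍ → ℂ := fun τ => F (heckeDiagMatrix d • τ)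

theorem Bd_apply (d : ℕ) (F : ℍ → ℂ) (τ : ℍ) : Bd d F τ = F (heckeDiagMatrix d • τ) := rfl

theorem slash_heckeDiagMatrix_eq_smul_Bd (k : ℤ) {d : ℕ} (hd : d ≠ 0) (F : ℍ → ℂ) :
    F ∣[k] heckeDiagMatrix d = ((d : ℂ) ^ (k - 1)) • Bd d F := by
  funext τ
  rw [slash_heckeDiagMatrix_apply k hd]
  rfl

theorem Bd_eq_smul_slash (k : ℤ) {d : ℕ} (hd : d ≠ 0) (F : ℍ → ℂ) :
    Bd d F = ((d : ℂ) ^ (k - 1))⁻¹ • (F ∣[k] heckeDiagMatrix d) := by
  have hd' : ((d : ℂ) ^ (k - 1)) ≠ 0 := zpow_ne_zero _ (by exact_mod_cast hd)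
  rw [slash_heckeDiagMatrix_eq_smul_Bd k hd, smul_smul, inv_mul_cancel₀ hd', one_smul]

/-- If `diag(d,1) * A = A' * diag(d,1)` then `(B_d G) ∣ A = B_d (G ∣ A')`. -/
theorem Bd_slash_of_comm (k : ℤ) {d : ℕ} (hd : d ≠ 0) (A A' : GL (Fin 2) ℝ)
    (hA : UpperHalfPlane.σ A = .refl ℝ ℂ)
    (hcomm : heckeDiagMatrix d * A = A' * heckeDiagMatrix d) (G : ℍ → ℂ) :
    (Bd d G) ∣[k] A = Bd d (G ∣[k] A') := by
  rw [Bd_eq_smul_slash k hd G, smul_slash_of_σ A hA, ← SlashAction.slash_mul, hcomm,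
    SlashAction.slash_mul, ← Bd_eq_smul_slash k hd]

/-- The `q`-series of `B_d H`. -/
theorem HasQ.Bd {c : ℕ → ℂ} {H : ℍ → ℂ} (h : HasQ c H) {d : ℕ} (hd : d ≠ 0) :
    HasQ (fun n => if d ∣ n then c (n / d) else 0) (Bd d H) :=
  h.comp_diag hd

end

end Fermat.Agent.Lib.Newform.H743
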