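import Mathlib
import Fermat.Prelude.Def_ModularForm_HeckeOperator
import Fermat.Agent.Lib.Newform.H623.Trace
import Fermat.Agent.Lib.Newform.H743.ALq

/-!
# NEWFORM library (helper743), part 6: dropping a prime `q ∤ N`

Let `F` be cuspidal and `Γ₀(N)`-invariant, `q ∤ N` a prime, and assume
`F = B_q G₀ + ∑_{p ∈ s} B_p G_p` with `G₀` of level `N` and `G_p` of level `(N / p) q`
(`p ∣ N`).  Then `a_n(F) = 0` for all `n` prime to `s`.

Proof: slash the identity with the Atkin–Lehner matrix `A = [q, b; N q, q d]`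
(`q d - N b = 1`).  `F ∣ A = q^{k-1} B_q F`, `(B_q G₀) ∣ A = q⁻¹ G₀` and
`(B_p G_p) ∣ A = B_p (G_p ∣ A'_p)`.  Comparing coefficients prime to `s` in both identities gives
`a_n(G₀) = q^k a_{n / q²}(G₀)`, hence `a_n(G₀) = 0` by descent.
-/

set_option autoImplicit false

open UpperHalfPlane ModularForm Function Complex CongruenceSubgroup Matrix.SpecialLinearGroup
open scoped MatrixGroups ModularForm Manifold Topology Real

namespace Fermat.Agent.Lib.Newform.H743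

open Fermat.Agent.Lib.Newform.H803

noncomputable section

/-- An element of `SL(2, ℤ)` with prescribed entries. -/
def mkSL (a b c d : ℤ) (h : a * d - b * c = 1) : SL(2, ℤ) :=
  ⟨!![a, b; c, d], by rw [Matrix.det_fin_two_of]; exact h⟩

theorem val_mapGL_mkSL (a b c d : ℤ) (h : a * d - b * c = 1) :
    ((mapGL ℝ (mkSL a b c d h) : GL (Fin 2) ℝ) : Matrix (Fin 2) (Fin 2) ℝ) =
      !![(a : ℝ), (b : ℝ); (c : ℝ), (d : ℝ)] := by
  rw [coe_mapGL_eq_of]
  rfl

theorem mkSL_mem_Gamma0 (N : ℕ) (a b c d : ℤ) (h : a * d - b * c = 1) (hc : (N : ℤ) ∣ c) :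
    mkSL a b c d h ∈ Gamma0 N := by
  rw [Gamma0_mem, ZMod.intCast_zmod_eq_zero_iff_dvd]
  exact hc

/-- `A = γ * diag(q, 1)`. -/
theorem AL_eq_mul (q : ℕ) (hq : q ≠ 0) (N b d : ℤ) (h : (q : ℤ) * d - N * b = 1)
    (hA : (q : ℤ) * (q * d) - b * (N * q) ≠ 0) :
    intGL q b (N * q) (q * d) hA =
      mapGL ℝ (mkSL 1 b N (q * d) (by linear_combination h)) * heckeDiagMatrix q := by
  apply Units.ext
  rw [Units.val_mul, val_intGL, val_mapGL_mkSL, val_heckeDiagMatrix hq, Matrix.mul_fin_two]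
  congr 1
  ext i j
  fin_cases i <;> fin_cases j <;> simp <;> ring

/-- `diag(q, 1) * A = q • γ'`. -/
theorem diag_mul_AL (q : ℕ) (hq : q ≠ 0) (N b d : ℤ) (h : (q : ℤ) * d - N * b = 1)
    (hA : (q : ℤ) * (q * d) - b * (N * q) ≠ 0) :
    ((heckeDiagMatrix q * intGL q b (N * q) (q * d) hA : GL (Fin 2) ℝ) :
        Matrix (Fin 2) (Fin 2) ℝ) =
      (q : ℝ) • ((mapGL ℝ (mkSL q b N d (by linear_combination h)) : GL (Fin 2) ℝ) :
        Matrix (Fin 2) (Fin 2) ℝ) := by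
  rw [Units.val_mul, val_intGL, val_mapGL_mkSL, val_heckeDiagMatrix hq, Matrix.mul_fin_two]
  ext i j
  fin_cases i <;> fin_cases j <;> simp <;> ring

/-- `diag(p, 1) * A = A' * diag(p, 1)` for `N = p * N'`. -/
theorem diag_mul_AL_comm (q p : ℕ) (hp : p ≠ 0) (N' b d : ℤ)
    (hA : (q : ℤ) * (q * d) - b * ((p : ℤ) * N' * q) ≠ 0)
    (hA' : (q : ℤ) * (q * d) - (p * b) * (N' * q) ≠ 0) :
    heckeDiagMatrix p * intGL q b ((p : ℤ) * N' * q) (q * d) hA =
      intGL q (p * b) (N' * q) (q * d) hA' * heckeDiagMatrix p := by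
  apply Units.ext
  rw [Units.val_mul, Units.val_mul, val_intGL, val_intGL, val_heckeDiagMatrix hp,
    Matrix.mul_fin_two, Matrix.mul_fin_two]
  congr 1
  ext i j
  fin_cases i <;> fin_cases j <;> simp <;> ring

/-- `A' * T = δ * A'`. -/
theorem AL'_mul_T (q p : ℕ) (N' b d : ℤ) (h : (q : ℤ) * d - (p : ℤ) * N' * b = 1)
    (hA' : (q : ℤ) * (q * d) - (p * b) * (N' * q) ≠ 0) :
    intGL q (p * b) (N' * q) (q * d) hA' * mapGL ℝ (mkSL 1 1 0 1 (by ring)) =
      mapGL ℝ (mkSL (1 - q * N') q (-(N' ^ 2 * q)) (1 + N' * q) (by ring)) *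
        intGL q (p * b) (N' * q) (q * d) hA' := by
  have h' : (q : ℝ) * d - (p : ℝ) * N' * b = 1 := by exact_mod_cast h
  apply Units.ext
  rw [Units.val_mul, Units.val_mul, val_intGL, val_mapGL_mkSL, val_mapGL_mkSL,
    Matrix.mul_fin_two, Matrix.mul_fin_two]
  congr 1
  ext i j
  fin_cases i <;> fin_cases j
  · simp
    ring
  · simp
    linear_combination (-(q : ℝ)) * h'
  · simp
    ring
  · simp
    linear_combination (-(N' : ℝ) * (q : ℝ)) * h'

/-- **Dropping a prime `q ∤ N`.** -/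
theorem dropQ_coeff {k : ℤ} {N q : ℕ} (hq : q.Prime) (hqN : ¬ q ∣ N)
    (s : Finset ℕ) (N' : ℕ → ℕ) (hs : ∀ p ∈ s, p ≠ 0 ∧ N = p * N' p)
    {F : ℍ → ℂ} (hF : IsCuspidal k F) (hFinv : SlInv k (Gamma0 N) F)
    {G₀ : ℍ → ℂ} (hG₀ : IsCuspidal k G₀) (hG₀inv : SlInv k (Gamma0 N) G₀)
    {G : ℕ → ℍ → ℂ} (hG : ∀ p ∈ s, IsCuspidal k (G p) ∧ SlInv k (Gamma0 (N' p * q)) (G p))
    (hsum : F = Bd q G₀ + ∑ p ∈ s, Bd p (G p)) :
    ∀ n : ℕ, (∀ p ∈ s, ¬ p ∣ n) → (qExpansion 1 F).coeff n = 0 := by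
  classical
  have hq0 : q ≠ 0 := hq.ne_zero
  have hqC : (q : ℂ) ≠ 0 := by exact_mod_cast hq0
  -- Bezout
  have hcop : IsCoprime (q : ℤ) (N : ℤ) := by
    rw [Prime.coprime_iff_not_dvd (Nat.prime_iff_prime_int.mp hq)]
    exact_mod_cast hqN
  obtain ⟨d, b', hdb⟩ := hcop
  set b : ℤ := -b' with hb
  have hbez : (q : ℤ) * d - (N : ℤ) * b = 1 := by rw [hb]; linear_combination hdb
  have hdetA : (q : ℤ) * (q * d) - b * ((N : ℤ) * q) = q := by linear_combination (q : ℤ) * hbez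
  have hqZ : (q : ℤ) ≠ 0 := by exact_mod_cast hq0
  have hqpos : (0 : ℤ) < q := by exact_mod_cast hq.pos
  have hA : (q : ℤ) * (q * d) - b * ((N : ℤ) * q) ≠ 0 := by rw [hdetA]; exact hqZ
  set A : GL (Fin 2) ℝ := intGL q b ((N : ℤ) * q) (q * d) hA with hAdef
  have hσA : UpperHalfPlane.σ A = .refl ℝ ℂ := σ_intGL _ _ _ _ hA (by rw [hdetA]; exact hqpos)
  -- q-series
  have hperF := periodic_of_slInv_Gamma0 hFinv
  have hperG₀ := periodic_of_slInv_Gamma0 hG₀inv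
  have hQF := hasQ_of_isCuspidal hF hperF
  have hQG₀ := hasQ_of_isCuspidal hG₀ hperG₀
  have hQG : ∀ p ∈ s, HasQ (fun n => (qExpansion 1 (G p)).coeff n) (G p) := fun p hp =>
    hasQ_of_isCuspidal (hG p hp).1 (periodic_of_slInv_Gamma0 (hG p hp).2)
  -- the functions `H p = G p ∣ A'_p`
  have hA' : ∀ p : ℕ, N = p * N' p →
      (q : ℤ) * (q * d) - ((p : ℤ) * b) * ((N' p : ℤ) * q) ≠ 0 := by
    intro p hp
    have : ((N : ℤ)) = p * N' p := by exact_mod_cast hp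
    have e : (q : ℤ) * (q * d) - ((p : ℤ) * b) * ((N' p : ℤ) * q) = q := by
      rw [this] at hbez
      linear_combination (q : ℤ) * hbez
    rw [e]; exact hqZ
  let H : ℕ → ℍ → ℂ := fun p =>
    if hp : N = p * N' p then G p ∣[k] intGL q (p * b) ((N' p : ℤ) * q) (q * d) (hA' p hp) else 0
  have hHdef : ∀ p (hp : N = p * N' p),
      H p = G p ∣[k] intGL q (p * b) ((N' p : ℤ) * q) (q * d) (hA' p hp) := by
    intro p hp
    simp only [H, dif_pos hp]
  have hHcusp : ∀ p ∈ s, IsCuspidal k (H p) := by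
    intro p hp
    rw [hHdef p (hs p hp).2]
    exact isCuspidal_slash_intGL (hG p hp).1 _ _ _ _ _
  have hHper : ∀ p ∈ s, Periodic (H p ∘ ofComplex) (1 : ℝ) := by
    intro p hp
    have hpN := (hs p hp).2
    have hpNZ : ((N : ℤ)) = p * N' p := by exact_mod_cast hpN
    apply periodic_of_slash_T (k := k)
    rw [hHdef p hpN]
    have hbez' : (q : ℤ) * d - (p : ℤ) * (N' p : ℤ) * b = 1 := by rw [← hpNZ]; exact hbez
    have hT : ModularGroup.T = mkSL 1 1 0 1 (by ring) := by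
      ext i j
      fin_cases i <;> fin_cases j <;> rfl
    rw [sl_slash_mapGL, hT]
    have hcomm := AL'_mul_T q p (N' p) b d hbez' (hA' p hpN)
    rw [← SlashAction.slash_mul, hcomm, SlashAction.slash_mul]
    congr 1
    have hmem : mkSL (1 - q * (N' p : ℤ)) q (-((N' p : ℤ) ^ 2 * q)) (1 + (N' p : ℤ) * q)
        (by ring) ∈ Gamma0 (N' p * q) := by
      apply mkSL_mem_Gamma0
      refine ⟨-(N' p : ℤ), ?_⟩
      push_cast
      ring
    have := (hG p hp).2 _ hmem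
    rw [sl_slash_mapGL] at this
    exact this
  have hQH : ∀ p ∈ s, HasQ (fun n => (qExpansion 1 (H p)).coeff n) (H p) := fun p hp =>
    hasQ_of_isCuspidal (hHcusp p hp) (hHper p hp)
  -- first identity of coefficients
  have hQ1 : HasQ (fun n => (if q ∣ n then (qExpansion 1 G₀).coeff (n / q) else 0) +
      ∑ p ∈ s, if p ∣ n then (qExpansion 1 (G p)).coeff (n / p) else 0) F := by
    rw [hsum]
    exact (hQG₀.Bd hq0).add (HasQ.sum s fun p hp => (hQG p hp).Bd (hs p hp).1)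
  have hc1 : ∀ n : ℕ, (∀ p ∈ s, ¬ p ∣ n) →
      (qExpansion 1 F).coeff n = if q ∣ n then (qExpansion 1 G₀).coeff (n / q) else 0 := by
    intro n hn
    rw [hQF.unique hQ1 n]
    rw [Finset.sum_eq_zero (fun p hp => if_neg (hn p hp)), add_zero]
  -- second identity: slash with `A`
  have hFA : F ∣[k] A = ((q : ℂ) ^ (k - 1)) • Bd q F := by
    rw [hAdef, AL_eq_mul q hq0 N b d hbez hA, SlashAction.slash_mul]
    have hγ : mkSL 1 b N (q * d) (by linear_combination hbez) ∈ Gamma0 N :=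
      mkSL_mem_Gamma0 N _ _ _ _ _ (dvd_refl _)
    have := hFinv _ hγ
    rw [sl_slash_mapGL] at this
    rw [this, slash_heckeDiagMatrix_eq_smul_Bd k hq0]
  have hG₀A : (Bd q G₀) ∣[k] A = (((q : ℂ) ^ (k - 1))⁻¹ * (q : ℂ) ^ (k - 2)) • G₀ := by
    rw [Bd_eq_smul_slash k hq0 G₀, smul_slash_of_σ A hσA, ← SlashAction.slash_mul]
    have hγ' : mkSL q b N d (by linear_combination hbez) ∈ Gamma0 N :=
      mkSL_mem_Gamma0 N _ _ _ _ _ (dvd_refl _)
    rw [Fermat.Agent.Lib.Newform.H623.slash_eq_of_val_eq_smul k G₀ _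
      (mapGL ℝ (mkSL q b N d (by linear_combination hbez))) q hq0
      (diag_mul_AL q hq0 N b d hbez hA)]
    have := hG₀inv _ hγ'
    rw [sl_slash_mapGL] at this
    rw [this, smul_smul]
  have hGpA : ∀ p ∈ s, (Bd p (G p)) ∣[k] A = Bd p (H p) := by
    intro p hp
    have hpN := (hs p hp).2
    have hpNZ : ((N : ℤ)) = p * N' p := by exact_mod_cast hpN
    rw [hHdef p hpN]
    refine Bd_slash_of_comm k (hs p hp).1 A _ hσA ?_ (G p)
    have hA2 : (q : ℤ) * (q * d) - b * ((p : ℤ) * (N' p : ℤ) * q) ≠ 0 := by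
      rw [← hpNZ]; exact hA
    have h1 := diag_mul_AL_comm q p (hs p hp).1 (N' p) b d hA2 (hA' p hpN)
    have h2 : A = intGL q b ((p : ℤ) * (N' p : ℤ) * q) (q * d) hA2 := by
      rw [hAdef]
      congr 1
      rw [hpNZ]
    rw [h2]
    exact h1
  have hsumA : ((q : ℂ) ^ (k - 1)) • Bd q F =
      (((q : ℂ) ^ (k - 1))⁻¹ * (q : ℂ) ^ (k - 2)) • G₀ + ∑ p ∈ s, Bd p (H p) := by
    rw [← hFA]
    conv_lhs => rw [hsum]
    rw [SlashAction.add_slash, SlashAction.sum_slash, hG₀A]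
    congr 1
    exact Finset.sum_congr rfl hGpA
  have hQ2L := (hQF.Bd hq0).smul ((q : ℂ) ^ (k - 1))
  have hQ2R : HasQ (fun n => (((q : ℂ) ^ (k - 1))⁻¹ * (q : ℂ) ^ (k - 2)) *
      (qExpansion 1 G₀).coeff n +
      ∑ p ∈ s, if p ∣ n then (qExpansion 1 (H p)).coeff (n / p) else 0)
      (((q : ℂ) ^ (k - 1)) • Bd q F) := by
    rw [hsumA]
    exact (hQG₀.smul _).add (HasQ.sum s fun p hp => (hQH p hp).Bd (hs p hp).1)
  have hC : (((q : ℂ) ^ (k - 1))⁻¹ * (q : ℂ) ^ (k - 2)) ≠ 0 :=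
    mul_ne_zero (inv_ne_zero (zpow_ne_zero _ hqC)) (zpow_ne_zero _ hqC)
  have hc2 : ∀ n : ℕ, (∀ p ∈ s, ¬ p ∣ n) → ¬ q ^ 2 ∣ n → (qExpansion 1 G₀).coeff n = 0 := by
    intro n hn hq2
    have h1 := hQ2L.unique hQ2R n
    rw [Finset.sum_eq_zero (fun p hp => if_neg (hn p hp)), add_zero] at h1
    have h2 : (if q ∣ n then (qExpansion 1 F).coeff (n / q) else 0) = 0 := by
      split_ifs with hqn
      · obtain ⟨m, rfl⟩ := hqn
        rw [Nat.mul_div_cancel_left m hq.pos]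
        have hm : ∀ p ∈ s, ¬ p ∣ m := fun p hp hpm => hn p hp (hpm.mul_left q)
        rw [hc1 m hm, if_neg]
        intro hqm
        apply hq2
        obtain ⟨m', rfl⟩ := hqm
        exact ⟨m', by ring⟩
      · rfl
    rw [h2, mul_zero] at h1
    rcases mul_eq_zero.mp h1.symm with h3 | h3
    · exact absurd h3 hC
    · exact h3
  have hc3 : ∀ n : ℕ, (∀ p ∈ s, ¬ p ∣ n) → (qExpansion 1 G₀).coeff (q ^ 2 * n) =
      ((((q : ℂ) ^ (k - 1))⁻¹ * (q : ℂ) ^ (k - 2))⁻¹ * (q : ℂ) ^ (k - 1)) *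
        (qExpansion 1 G₀).coeff n := by
    intro n hn
    have hn2 : ∀ p ∈ s, ¬ p ∣ q ^ 2 * n := by
      intro p hp hpn
      have hpN := (hs p hp).2
      have hpq : Nat.Coprime p q := by
        rw [Nat.coprime_comm, Nat.Prime.coprime_iff_not_dvd hq]
        intro hqp
        exact hqN (hpN ▸ hqp.mul_right _)
      exact hn p hp ((hpq.pow_right 2).dvd_of_dvd_mul_left hpn)
    have h1 := hQ2L.unique hQ2R (q ^ 2 * n)
    rw [Finset.sum_eq_zero (fun p hp => if_neg (hn2 p hp)), add_zero] at h1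
    have hdiv : q ∣ q ^ 2 * n := ⟨q * n, by ring⟩
    rw [if_pos hdiv] at h1
    have e1 : q ^ 2 * n / q = q * n := by
      rw [show q ^ 2 * n = q * (q * n) by ring, Nat.mul_div_cancel_left _ hq.pos]
    rw [e1] at h1
    have hn1 : ∀ p ∈ s, ¬ p ∣ q * n := by
      intro p hp hpn
      exact hn2 p hp (by rw [show q ^ 2 * n = q * (q * n) by ring]; exact hpn.mul_left q)
    rw [hc1 (q * n) hn1, if_pos (dvd_mul_right q n), Nat.mul_div_cancel_left _ hq.pos] at h1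
    rw [mul_assoc, h1, ← mul_assoc, inv_mul_cancel₀ hC, one_mul]
  -- descent
  have hG₀zero : ∀ n : ℕ, (∀ p ∈ s, ¬ p ∣ n) → (qExpansion 1 G₀).coeff n = 0 := by
    intro n
    induction n using Nat.strong_induction_on with
    | _ n ih =>
      intro hn
      by_cases hq2 : q ^ 2 ∣ n
      · obtain ⟨m, rfl⟩ := hq2
        rcases Nat.eq_zero_or_pos m with rfl | hm
        · rw [mul_zero]
          exact qExpansion_coeff_zero_of_isCuspidal hG₀ hperG₀
        · have hm' : ∀ p ∈ s, ¬ p ∣ m := fun p hp hpm => hn p hp (hpm.mul_left _)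
          have hlt : m < q ^ 2 * m := by
            have : 1 < q ^ 2 := Nat.one_lt_pow (by norm_num) hq.one_lt
            nlinarith
          rw [hc3 m hm', ih m hlt hm', mul_zero]
      · exact hc2 n hn hq2
  intro n hn
  rw [hc1 n hn]
  split_ifs with hqn
  · apply hG₀zero
    intro p hp hpn
    exact hn p hp (hpn.trans (Nat.div_dvd_of_dvd hqn))
  · rfl

end

end Fermat.Agent.Lib.Newform.H743
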