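import Mathlib
import Fermat.Prelude.Def_ModularForm_HeckeOperator
import Fermat.Prelude.Def_FLTPrelim_Modularity
import Fermat.Agent.Lib.Newform.H743.DropQ

/-!
# NEWFORM library (helper743), part 7: the Atkin–Lehner main lemma, `D`-form

`mainLemmaD`: if `f ∈ S_k(Γ₀(N))` has `a_n(f) = 0` for all `n` prime to `D` (`D > 0` ANY integer,
its primes need not divide `N`), then `f = ∑_{p ∣ gcd(N, D)} B_p g_p` with `g_p ∈ S_k(Γ₀(N / p))`.
Consequently (`coeff_eq_zero_of_coprime_level`) `a_n(f) = 0` for all `n` prime to `N`: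
"almost all primes" upgrades to "all primes not dividing the level".  Petersson-free.

* base case (all primes divide `N`): helper803's `main_hat`;
* a prime `q ∤ N` is dropped by `dropQ_coeff` after passing to level `q N`.
-/

set_option autoImplicit false

open UpperHalfPlane ModularForm Function Complex CongruenceSubgroup Matrix.SpecialLinearGroup
open scoped MatrixGroups ModularForm Manifold Topology Real

namespace Fermat.Agent.Lib.Newform.H743

open Fermat.Agent.Lib.Newform.H803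

noncomputable section

/-- **Base case**: the main lemma for a set `s` of primes dividing `N`, at function level. -/
theorem mainL_base {k : ℤ} (N : ℕ) [NeZero N] (s : Finset ℕ) (hs : ∀ p ∈ s, p.Prime ∧ p ∣ N)
    {F : ℍ → ℂ} (hF : IsCuspidal k F) (hFinv : SlInv k (Gamma0 N) F)
    (hvan : ∀ n : ℕ, (∀ p ∈ s, ¬ p ∣ n) → (qExpansion 1 F).coeff n = 0) :
    ∃ G : ℕ → ℍ → ℂ, (∀ p ∈ s, IsCuspidal k (G p) ∧ SlInv k (Gamma0 (N / p)) (G p)) ∧
      F = ∑ p ∈ s, Bd p (G p) := by
  classical
  have hN : N ≠ 0 := NeZero.ne N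
  set Fh : ℍ → ℂ := F ∣[k] heckeMatrix N 0 with hFh
  have hFhinv : SlInv k (GammaU N) Fh := slInv_hat hN hFinv
  have hFhcusp : IsCuspidal k Fh := hF.slash_heckeMatrix hN 0
  have hLnd : (s.toList).Nodup := Finset.nodup_toList _
  have hLmem : ∀ p ∈ s.toList, p.Prime ∧ p ∣ N := fun p hp => hs p (Finset.mem_toList.mp hp)
  have hQF := hasQ_of_isCuspidal hF (periodic_of_slInv_Gamma0 hFinv)
  have hQ : HasQN N (fun n => (N : ℂ)⁻¹ * (qExpansion 1 F).coeff n) Fh :=
    hasQN_hat hN (fun τ => hQF τ)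
  have hK : killL k N s.toList Fh = 0 := by
    refine (hasQN_killL hN hQ _ fun p hp => ⟨(hLmem p hp).1.ne_zero, (hLmem p hp).2⟩).eq_zero ?_
    intro n
    split_ifs with hn
    · rfl
    · rw [hvan n, mul_zero]
      intro p hp hpn
      exact hn ⟨p, Finset.mem_toList.mpr hp, hpn⟩
  obtain ⟨G, hG, hGsum⟩ := main_hat (k := k) N cuspSub_slash_stable _ hLnd hLmem Fh
    (mem_cuspSub.mpr hFhcusp) hFhinv hK
  have hd0 : ∀ p ∈ s, N / p ≠ 0 := fun p hp =>
    (Nat.div_pos (Nat.le_of_dvd (Nat.pos_of_ne_zero hN) (hs p hp).2) (hs p hp).1.pos).ne'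
  have hGc : ∀ p ∈ s, IsCuspidal k (G p) := fun p hp =>
    mem_cuspSub.mp (hG p (Finset.mem_toList.mpr hp)).1
  have hGi : ∀ p ∈ s, SlInv k (GammaU (N / p)) (G p) := fun p hp =>
    (hG p (Finset.mem_toList.mpr hp)).2
  refine ⟨fun p => ((N : ℂ) * ((((N / p : ℕ) : ℂ)) ^ (k - 1))⁻¹) •
    (G p ∣[k] heckeDiagMatrix (N / p)), fun p hp => ⟨?_, ?_⟩, ?_⟩
  · exact ((hGc p hp).slash_heckeDiagMatrix (hd0 p hp)).smul _
  · exact (slInv_unhat (hd0 p hp) (hGi p hp)).smul _
  · funext τ
    have h1 : F τ = (N : ℂ) * Fh (heckeDiagMatrix N • τ) := by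
      rw [hFh, slash_heckeMatrix_apply k hN 0, heckeMatrix_smul_heckeDiagMatrix_smul hN]
      have : (N : ℂ) ≠ 0 := by exact_mod_cast hN
      field_simp
    rw [h1, hGsum, Finset.sum_map_toList, Finset.sum_apply, Finset.mul_sum, Finset.sum_apply]
    refine Finset.sum_congr rfl fun p hp => ?_
    have hpN : p * (N / p) = N := Nat.mul_div_cancel' (hs p hp).2
    have hp0 : p ≠ 0 := (hs p hp).1.ne_zero
    rw [Bd_apply]
    beta_reduce
    rw [Pi.smul_apply, smul_eq_mul, slash_heckeDiagMatrix_apply k (hd0 p hp),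
      heckeDiagMatrix_smul_smul (hd0 p hp) hp0 hN hpN]
    have hd' : (((N / p : ℕ) : ℂ)) ^ (k - 1) ≠ 0 :=
      zpow_ne_zero _ (by exact_mod_cast hd0 p hp)
    field_simp

/-- **Vanishing of the coefficients prime to the level**, by induction on the number of primes
of `s` not dividing `N`. -/
theorem coeff_eq_zero_of_forall_not_dvd {k : ℤ} : ∀ (m : ℕ) (N : ℕ) [NeZero N] (s : Finset ℕ),
    (∀ p ∈ s, p.Prime) → (s.filter (fun p => ¬ p ∣ N)).card ≤ m →
    ∀ F : ℍ → ℂ, IsCuspidal k F → SlInv k (Gamma0 N) F →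
      (∀ n : ℕ, (∀ p ∈ s, ¬ p ∣ n) → (qExpansion 1 F).coeff n = 0) →
      ∀ n : ℕ, (∀ p ∈ s.filter (fun p => p ∣ N), ¬ p ∣ n) → (qExpansion 1 F).coeff n = 0 := by
  classical
  intro m
  induction m with
  | zero =>
    intro N _ s _ hcard F _ _ hvan n hn
    have hall : ∀ p ∈ s, p ∣ N := by
      intro p hp
      by_contra hpN
      have : p ∈ s.filter (fun p => ¬ p ∣ N) := Finset.mem_filter.mpr ⟨hp, hpN⟩
      have h0 : s.filter (fun p => ¬ p ∣ N) = ∅ := Finset.card_eq_zero.mp (Nat.le_zero.mp hcard)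
      rw [h0] at this
      exact absurd this (Finset.notMem_empty _)
    exact hvan n fun p hp => hn p (Finset.mem_filter.mpr ⟨hp, hall p hp⟩)
  | succ m ih =>
    intro N hNZ s hs hcard F hF hFinv hvan n hn
    by_cases hex : ∃ q ∈ s, ¬ q ∣ N
    · obtain ⟨q, hqs, hqN⟩ := hex
      have hq : q.Prime := hs q hqs
      have hN : N ≠ 0 := NeZero.ne N
      have : NeZero (q * N) := ⟨mul_ne_zero hq.ne_zero hN⟩
      -- the count of outside primes drops at level `q * N`
      have hsub : s.filter (fun p => ¬ p ∣ q * N) ⊆ (s.filter (fun p => ¬ p ∣ N)).erase q := by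
        intro p hp
        rw [Finset.mem_filter] at hp
        rw [Finset.mem_erase, Finset.mem_filter]
        refine ⟨?_, hp.1, fun h => hp.2 (h.mul_left q)⟩
        rintro rfl
        exact hp.2 (dvd_mul_right _ _)
      have hcard' : (s.filter (fun p => ¬ p ∣ q * N)).card ≤ m := by
        have h1 := Finset.card_le_card hsub
        have h2 : q ∈ s.filter (fun p => ¬ p ∣ N) := Finset.mem_filter.mpr ⟨hqs, hqN⟩
        rw [Finset.card_erase_of_mem h2] at h1
        omega
      have hFinv' : SlInv k (Gamma0 (q * N)) F := hFinv.mono (Gamma0_mul_le q N)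
      -- induction hypothesis at level `q * N`, then the base case there
      have hvan' := ih (q * N) s hs hcard' F hF hFinv' hvan
      have hs' : ∀ p ∈ s.filter (fun p => p ∣ q * N), p.Prime ∧ p ∣ q * N := fun p hp =>
        ⟨hs p (Finset.mem_filter.mp hp).1, (Finset.mem_filter.mp hp).2⟩
      obtain ⟨G, hG, hsum⟩ := mainL_base (q * N) (s.filter (fun p => p ∣ q * N)) hs' hF hFinv' hvan'
      -- split off `q`
      set t : Finset ℕ := s.filter (fun p => p ∣ N) with ht
      have hqt : q ∉ t := fun h => hqN (Finset.mem_filter.mp h).2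
      have hfilt : s.filter (fun p => p ∣ q * N) = insert q t := by
        ext p
        rw [Finset.mem_filter, Finset.mem_insert, Finset.mem_filter]
        constructor
        · rintro ⟨hp, hpd⟩
          by_cases hpq : p = q
          · exact Or.inl hpq
          · right
            refine ⟨hp, ?_⟩
            have hcop : Nat.Coprime p q := (Nat.coprime_primes (hs p hp) hq).mpr hpq
            exact hcop.dvd_of_dvd_mul_left hpd
        · rintro (rfl | ⟨hp, hpd⟩)
          · exact ⟨hqs, dvd_mul_right _ _⟩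
          · exact ⟨hp, hpd.mul_left q⟩
      rw [hfilt, Finset.sum_insert hqt] at hsum
      have hGq := hG q (by rw [hfilt]; exact Finset.mem_insert_self q t)
      rw [Nat.mul_div_cancel_left N hq.pos] at hGq
      have hGt : ∀ p ∈ t, IsCuspidal k (G p) ∧ SlInv k (Gamma0 (N / p * q)) (G p) := by
        intro p hp
        have h1 := hG p (by rw [hfilt]; exact Finset.mem_insert_of_mem hp)
        have hpN : p ∣ N := (Finset.mem_filter.mp hp).2
        rw [Nat.mul_div_assoc q hpN, mul_comm q (N / p)] at h1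
        exact h1
      have hst : ∀ p ∈ t, p ≠ 0 ∧ N = p * (N / p) := fun p hp =>
        ⟨(hs p (Finset.mem_filter.mp hp).1).ne_zero,
          (Nat.mul_div_cancel' (Finset.mem_filter.mp hp).2).symm⟩
      exact dropQ_coeff hq hqN t (fun p => N / p) hst hF hFinv hGq.1 hGq.2 hGt hsum n hn
    · -- no outside prime at all
      have hex' : ∀ p ∈ s, p ∣ N := fun p hp => by
        by_contra h
        exact hex ⟨p, hp, h⟩
      exact hvan n fun p hp => hn p (Finset.mem_filter.mpr ⟨hp, hex' p hp⟩)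

/-- **Main lemma, `D`-form, at function level.** -/
theorem mainL_general {k : ℤ} (N : ℕ) [NeZero N] (s : Finset ℕ) (hs : ∀ p ∈ s, p.Prime)
    {F : ℍ → ℂ} (hF : IsCuspidal k F) (hFinv : SlInv k (Gamma0 N) F)
    (hvan : ∀ n : ℕ, (∀ p ∈ s, ¬ p ∣ n) → (qExpansion 1 F).coeff n = 0) :
    ∃ G : ℕ → ℍ → ℂ,
      (∀ p ∈ s, p ∣ N → IsCuspidal k (G p) ∧ SlInv k (Gamma0 (N / p)) (G p)) ∧
      F = ∑ p ∈ s.filter (fun p => p ∣ N), Bd p (G p) := by
  classical
  have h1 := coeff_eq_zero_of_forall_not_dvd (k := k) (s.filter (fun p => ¬ p ∣ N)).card N s hs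
    le_rfl F hF hFinv hvan
  have hs' : ∀ p ∈ s.filter (fun p => p ∣ N), p.Prime ∧ p ∣ N := fun p hp =>
    ⟨hs p (Finset.mem_filter.mp hp).1, (Finset.mem_filter.mp hp).2⟩
  obtain ⟨G, hG, hsum⟩ := mainL_base N (s.filter (fun p => p ∣ N)) hs' hF hFinv h1
  exact ⟨G, fun p hp hpN => hG p (Finset.mem_filter.mpr ⟨hp, hpN⟩), hsum⟩

end

end Fermat.Agent.Lib.Newform.H743
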