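import Mathlib
import Fermat.Agent.Lib.Newform.H743.Vanish

/-!
# NEWFORM library (helper743): `Lemma16` in the row-lead's Spec shape

`lemma16` is (definitionally) `Fermat.Agent.Lib.Newform.H23.Lemma16`; `lemma16_any_weight` is the
same for every weight, and `vanish_of_not_dvd` is the companion statement for `q ∤ N`.
-/

set_option autoImplicit false

open CongruenceSubgroup
open scoped MatrixGroups

namespace Fermat.Agent.Lib.Newform.H743

open ModularFormClass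

theorem lemma16_any_weight (k : ℤ) (N q : ℕ) [NeZero N] (hq : q.Prime) (hqN : q ∣ N)
    (f : CuspForm (Gamma0 N) k) (h0 : ∀ n : ℕ, ¬ q ∣ n → qCoeff f n = 0) :
    ∃ g : CuspForm (Gamma0 (N / q)) k, (∀ n : ℕ, qCoeff g n = qCoeff f (q * n)) ∧
      (⇑g : UpperHalfPlane → ℂ) = ModularForm.heckeU k q ⇑f ∧
      ∀ τ : UpperHalfPlane, f τ = g (ModularForm.heckeDiagMatrix q • τ) := by
  have hNq : N / q ≠ 0 :=
    (Nat.div_pos (Nat.le_of_dvd (Nat.pos_of_ne_zero (NeZero.ne N)) hqN) hq.pos).ne'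
  haveI : NeZero (N / q) := ⟨hNq⟩
  have hNM : N ∣ q * (N / q) := by rw [Nat.mul_div_cancel' hqN]
  refine ⟨heckeULower hq hNM f h0, fun n => ?_, rfl, fun τ => apply_eq_heckeULower hq hNM f h0 τ⟩
  rw [qCoeff_heckeULower, mul_comm]

/-- **LEMMA 16** in the exact shape of `H23.Lemma16`. -/
theorem lemma16 :
    ∀ (N q : ℕ) [NeZero N], q.Prime → q ∣ N → ∀ f : CuspForm (Gamma0 N) 2,
      (∀ n : ℕ, ¬ q ∣ n → qCoeff f n = 0) →
      ∃ g : CuspForm (Gamma0 (N / q)) 2, ∀ n : ℕ, qCoeff g n = qCoeff f (q * n) := by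
  intro N q _ hq hqN f h0
  obtain ⟨g, hg, -, -⟩ := lemma16_any_weight 2 N q hq hqN f h0
  exact ⟨g, hg⟩

/-- Companion of Lemma 16 for `q ∤ N`. -/
theorem vanish_of_not_dvd :
    ∀ (k : ℤ) (N q : ℕ) [NeZero N], q.Prime → ¬ q ∣ N → ∀ f : CuspForm (Gamma0 N) k,
      (∀ n : ℕ, ¬ q ∣ n → qCoeff f n = 0) → f = 0 := by
  intro k N q _ hq hqN f h0
  exact eq_zero_of_qCoeff_eq_zero_of_not_dvd_level hq hqN f h0

end Fermat.Agent.Lib.Newform.H743
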