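import Mathlib
import Fermat.Prelude.Def_ModularForm_HeckeOperator
import Fermat.Prelude.Def_FLTPrelim_Modularity
import Fermat.Agent.Lib.Newform.H743.MainD

/-!
# NEWFORM library (helper743), part 8: `MainLemmaD` in the row-lead's Spec shape

* `mainLemmaD` : (definitionally) `Fermat.Agent.Lib.Newform.H23.MainLemmaD`.
* `mainLemmaD_any_weight` : the same for every weight, with the pointwise identity.
* `qCoeff_eq_zero_of_coprime_level` : if `a_n(f) = 0` for all `n` prime to `D` (any `D > 0`),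
  then `a_n(f) = 0` for all `n` prime to the level `N`  ("almost all ⇒ all").
* `mainLemma_any_weight'`, `mainLemma'` : the case `D = N` (`H23.MainLemma` shape).
-/

set_option autoImplicit false

open UpperHalfPlane ModularForm CongruenceSubgroup
open scoped MatrixGroups

namespace Fermat.Agent.Lib.Newform.H743

open Fermat.Agent.Lib.Newform.H803 ModularFormClass

noncomputable section

theorem forall_not_dvd_imp_coprime {D n : ℕ} (h : ∀ p ∈ D.primeFactors, ¬ p ∣ n) (hD : D ≠ 0) :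
    n.Coprime D := by
  apply Nat.coprime_of_dvd
  intro p hp hpn hpD
  exact h p (Nat.mem_primeFactors.mpr ⟨hp, hpD, hD⟩) hpn

theorem filter_dvd_primeFactors (N D : ℕ) (hN : N ≠ 0) :
    D.primeFactors.filter (fun p => p ∣ N) = N.primeFactors ∩ D.primeFactors := by
  ext p
  simp only [Finset.mem_filter, Finset.mem_inter, Nat.mem_primeFactors]
  constructor
  · rintro ⟨⟨hp, hpD, hD⟩, hpN⟩
    exact ⟨⟨hp, hpN, hN⟩, hp, hpD, hD⟩
  · rintro ⟨⟨hp, hpN, -⟩, -, hpD, hD⟩
    exact ⟨⟨hp, hpD, hD⟩, hpN⟩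

/-- "Almost all ⇒ all": vanishing of the coefficients prime to an arbitrary `D` implies vanishing
of the coefficients prime to the level. -/
theorem qCoeff_eq_zero_of_coprime_level (k : ℤ) (N D : ℕ) [NeZero N] (hD : 0 < D)
    (f : CuspForm (Gamma0 N) k) (h : ∀ n : ℕ, n.Coprime D → qCoeff f n = 0) :
    ∀ n : ℕ, n.Coprime N → qCoeff f n = 0 := by
  classical
  intro n hn
  refine coeff_eq_zero_of_forall_not_dvd (k := k) _ N D.primeFactors
    (fun p hp => (Nat.mem_primeFactors.mp hp).1) le_rfl (f : ℍ → ℂ)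
    (isCuspidal_of_cuspForm f) (slInv_of_cuspForm f)
    (fun n hn => h n (forall_not_dvd_imp_coprime hn hD.ne')) n ?_
  intro p hp hpn
  rw [Finset.mem_filter, Nat.mem_primeFactors] at hp
  have h1 : p ∣ Nat.gcd n N := Nat.dvd_gcd hpn hp.2
  rw [hn] at h1
  exact hp.1.1.one_lt.ne' (Nat.dvd_one.mp h1)

/-- **Main lemma, `D`-form**, any weight. -/
theorem mainLemmaD_any_weight (k : ℤ) (N D : ℕ) [NeZero N] (hD : 0 < D)
    (f : CuspForm (Gamma0 N) k) (h : ∀ n : ℕ, n.Coprime D → qCoeff f n = 0) :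
    ∃ g : (p : ℕ) → CuspForm (Gamma0 (N / p)) k,
      (∀ τ : ℍ, f τ = ∑ p ∈ N.primeFactors ∩ D.primeFactors, g p (heckeDiagMatrix p • τ)) ∧
      ∀ n : ℕ, qCoeff f n =
        ∑ p ∈ N.primeFactors ∩ D.primeFactors, if p ∣ n then qCoeff (g p) (n / p) else 0 := by
  classical
  have hN : N ≠ 0 := NeZero.ne N
  have hs : ∀ p ∈ D.primeFactors, p.Prime := fun p hp => (Nat.mem_primeFactors.mp hp).1
  obtain ⟨G, hG, hsum⟩ := mainL_general (k := k) N D.primeFactors hs
    (isCuspidal_of_cuspForm f) (slInv_of_cuspForm f)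
    (fun n hn => h n (forall_not_dvd_imp_coprime hn hD.ne'))
  rw [filter_dvd_primeFactors N D hN] at hsum
  have hmem : ∀ p ∈ N.primeFactors ∩ D.primeFactors, p ∈ D.primeFactors ∧ p ∣ N := by
    intro p hp
    rw [Finset.mem_inter] at hp
    exact ⟨hp.2, (Nat.mem_primeFactors.mp hp.1).2.1⟩
  let g : (p : ℕ) → CuspForm (Gamma0 (N / p)) k := fun p =>
    if hp : p ∈ D.primeFactors ∧ p ∣ N then
      cuspFormOfIsCuspidal (Gamma0 (N / p)) (G p) (hG p hp.1 hp.2).1 (hG p hp.1 hp.2).2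
    else 0
  have hg : ∀ p ∈ N.primeFactors ∩ D.primeFactors, (⇑(g p) : ℍ → ℂ) = G p := by
    intro p hp
    simp only [g, dif_pos (hmem p hp)]
    rfl
  refine ⟨g, fun τ => ?_, fun n => ?_⟩
  · have := congrFun hsum τ
    rw [Finset.sum_apply] at this
    rw [this]
    refine Finset.sum_congr rfl fun p hp => ?_
    rw [Bd_apply, hg p hp]
  · have hQf := hasQ_of_isCuspidal (isCuspidal_of_cuspForm f)
      (periodic_of_slInv_Gamma0 (slInv_of_cuspForm f))
    have hQ2 : HasQ (fun n => ∑ p ∈ N.primeFactors ∩ D.primeFactors,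
        if p ∣ n then (qExpansion 1 (G p)).coeff (n / p) else 0) (f : ℍ → ℂ) := by
      rw [hsum]
      refine HasQ.sum _ fun p hp => ?_
      have hp' := hmem p hp
      exact (hasQ_of_isCuspidal (hG p hp'.1 hp'.2).1
        (periodic_of_slInv_Gamma0 (hG p hp'.1 hp'.2).2)).Bd
        (Nat.mem_primeFactors.mp hp'.1).1.ne_zero
    have := hQf.unique hQ2 n
    rw [qCoeff, this]
    refine Finset.sum_congr rfl fun p hp => ?_
    rw [qCoeff, hg p hp]

/-- **MAIN LEMMA, `D`-form** in the exact shape of `H23.MainLemmaD`. -/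
theorem mainLemmaD :
    ∀ (N D : ℕ) [NeZero N], 0 < D → ∀ f : CuspForm (Gamma0 N) 2,
      (∀ n : ℕ, n.Coprime D → qCoeff f n = 0) →
      ∃ g : (p : ℕ) → CuspForm (Gamma0 (N / p)) 2, ∀ n : ℕ,
        qCoeff f n = ∑ p ∈ N.primeFactors ∩ D.primeFactors,
          if p ∣ n then qCoeff (g p) (n / p) else 0 := by
  intro N D _ hD f h
  obtain ⟨g, -, hg⟩ := mainLemmaD_any_weight 2 N D hD f h
  exact ⟨g, hg⟩

/-- **MAIN LEMMA** in the exact shape of `H23.MainLemma` (the case `D = N`). -/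
theorem mainLemma' :
    ∀ (N : ℕ) [NeZero N] (f : CuspForm (Gamma0 N) 2),
      (∀ n : ℕ, n.Coprime N → qCoeff f n = 0) →
      ∃ g : (p : ℕ) → CuspForm (Gamma0 (N / p)) 2, ∀ n : ℕ,
        qCoeff f n = ∑ p ∈ N.primeFactors, if p ∣ n then qCoeff (g p) (n / p) else 0 := by
  intro N _ f h
  obtain ⟨g, hg⟩ := mainLemmaD N N (Nat.pos_of_ne_zero (NeZero.ne N)) f h
  refine ⟨g, fun n => ?_⟩
  rw [hg n, Finset.inter_self]

end

end Fermat.Agent.Lib.Newform.H743
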